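import Mathlib
import Fermat.Agent.LT.T7.H57.FoldSpec5
import Fermat.Agent.LT.T2.H724.Glue

/-!
# Row LT, tower T7, LEAF `OmDecompC57` (helper704): `Ω = B(𝔸) · U(𝔪) K_∞`

    omDecompC704 : T1.T1Out K → H57.OmDecompC57 K

Spec: helper57 `Fermat/Agent/LT/T7/H57/FoldSpec5.lean` (sha256 8a9bba37...), VERBATIM.

Proof.  Iwasawa (`T1.IwasawaC`): `g = b k`, `b` upper triangular, `k` in the standard compact
group.  For `v ∣ 𝔪` the condition `g ∈ Ω` gives `k₁₀ = t k₁₁` at `v` with `t ∈ 𝔪 𝒪_v` (`b₁₁` is a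
unit).  Let `β` be the adelic element with `β_v = k_v [[1, 0], [-t, 1]]` at `v ∈ S` and `β = 1` at
all other places (helper724 `mkG724`); `β` is upper triangular, hence `b β = ι(p₀)`, and
`a = ι(p₀)⁻¹ g = β⁻¹ k` has the components `[[1, 0], [t, 1]]` at `v ∈ S`, `k_v` at `v ∉ S` and
`k_w` at the infinite places: it lies in the group generated by `U(𝔪)` and the `K_w`
(helper724 `mem_kGroup_of_comps724`, `mem_idealClosure_of_not_dvd724`).
-/

set_option autoImplicit false

open IsDedekindDomain NumberField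
open scoped ENNReal

noncomputable section

namespace Fermat.Agent.LT.H704

open Fermat.Agent.LT.H556 Fermat.Agent.LT.H556.A0 Fermat.Agent.LT.T7 Fermat.Agent.LT.T7.Rigid
open Fermat.Agent.LT.T7.H57 Fermat.Agent.LT.T1.H724 Fermat.Agent.LT.T2.H724

variable {K : Type} [Field K] [NumberField K]

/-- A function which is right invariant under the generators is right invariant under the
generated group. -/
theorem rightInv_kGroup704 {𝔪 : Ideal (𝓞 K)} {Ψ : G K → ℝ≥0∞} (hΨ : IsRightCE57 K 𝔪 Ψ)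
    {a : G K} (ha : a ∈ kGroup724 𝔪) : ∀ h : G K, Ψ (h * a) = Ψ h := by
  unfold kGroup724 at ha
  induction ha using Subgroup.closure_induction with
  | mem x hx =>
    intro h
    rcases hx with hx | ⟨w, hx⟩
    · exact hΨ.1 x hx h
    · exact hΨ.2 w x hx h
  | one => intro h; rw [mul_one]
  | mul x y _ _ hx hy => intro h; rw [← mul_assoc, hy, hx]
  | inv x _ hx =>
    intro h
    have := hx (h * x⁻¹)
    rw [inv_mul_cancel_right] at this
    exact this.symm

/-- An upper triangular element is in the image of the coordinates `ι`. -/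
theorem exists_iota_of_upper704 (B : G K)
    (hB : (B : Matrix (Fin 2) (Fin 2) (Adl K)) 1 0 = 0) :
    ∃ p₀ : PB57 K, iota57 K p₀ = B := by
  have hdet : IsUnit ((B : Matrix (Fin 2) (Fin 2) (Adl K)).det) :=
    (Matrix.isUnit_iff_isUnit_det _).1 B.isUnit
  rw [Matrix.det_fin_two, hB, mul_zero, sub_zero] at hdet
  have h00 : IsUnit ((B : Matrix (Fin 2) (Fin 2) (Adl K)) 0 0) := isUnit_of_mul_isUnit_left hdet
  have h11 : IsUnit ((B : Matrix (Fin 2) (Fin 2) (Adl K)) 1 1) := isUnit_of_mul_isUnit_right hdet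
  obtain ⟨y, hy⟩ := h00
  obtain ⟨z, hz⟩ := h11
  refine ⟨((B : Matrix (Fin 2) (Fin 2) (Adl K)) 0 1 * ((z⁻¹ : (Adl K)ˣ) : Adl K), y * z⁻¹, z), ?_⟩
  apply Units.ext
  ext i j : 2
  fin_cases i <;> fin_cases j
  · simp [iota57, Fermat.Agent.LT.T3.unip, dgA, zA57, Matrix.mul_apply, Fin.sum_univ_two, hy]
  · simp [iota57, Fermat.Agent.LT.T3.unip, dgA, zA57, Matrix.mul_apply, Fin.sum_univ_two,
      mul_assoc]
  · simp [iota57, Fermat.Agent.LT.T3.unip, dgA, zA57, Matrix.mul_apply, Fin.sum_univ_two, hB]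
  · simp [iota57, Fermat.Agent.LT.T3.unip, dgA, zA57, Matrix.mul_apply, Fin.sum_univ_two, hz]

theorem isInt_mul704 {v : HeightOneSpectrum (𝓞 K)}
    {M N : Matrix (Fin 2) (Fin 2) (v.adicCompletion K)}
    (hM : ∀ i j, Valued.v (M i j) ≤ 1) (hN : ∀ i j, Valued.v (N i j) ≤ 1) :
    ∀ i j, Valued.v ((M * N) i j) ≤ 1 := by
  intro i j
  rw [Matrix.mul_apply, Fin.sum_univ_two]
  refine (Valuation.map_add _ _ _).trans (max_le ?_ ?_)
  · rw [map_mul]
    exact mul_le_one' (hM i 0) (hN 0 j)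
  · rw [map_mul]
    exact mul_le_one' (hM i 1) (hN 1 j)

theorem isInt_low704 {v : HeightOneSpectrum (𝓞 K)} {t : v.adicCompletion K}
    (ht : Valued.v t ≤ 1) :
    ∀ i j, Valued.v ((!![1, 0; t, 1] : Matrix (Fin 2) (Fin 2) (v.adicCompletion K)) i j) ≤ 1 := by
  intro i j
  fin_cases i <;> fin_cases j <;> simp [ht]

theorem low_mul_low704 {v : HeightOneSpectrum (𝓞 K)} (t : v.adicCompletion K) :
    (!![1, 0; t, 1] : Matrix (Fin 2) (Fin 2) (v.adicCompletion K)) * !![1, 0; -t, 1] = 1 := by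
  ext i j : 2
  fin_cases i <;> fin_cases j <;> simp [Matrix.mul_apply, Fin.sum_univ_two]

theorem low_mul_low'704 {v : HeightOneSpectrum (𝓞 K)} (t : v.adicCompletion K) :
    (!![1, 0; -t, 1] : Matrix (Fin 2) (Fin 2) (v.adicCompletion K)) * !![1, 0; t, 1] = 1 := by
  ext i j : 2
  fin_cases i <;> fin_cases j <;> simp [Matrix.mul_apply, Fin.sum_univ_two]

/-- **LEAF OM-DECOMP** (helper57 `OmDecompC57`, VERBATIM). -/
theorem omDecompC704 (hT : Fermat.Agent.LT.T1.T1Out K) : OmDecompC57 K := by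
  classical
  intro _ S 𝔪 hS g hg
  obtain ⟨b, k, hb, hk, rfl⟩ := hT.iwasawa g
  have hb10 : (b : Matrix (Fin 2) (Fin 2) (Adl K)) 1 0 = 0 := hb
  have hdet : IsUnit ((b : Matrix (Fin 2) (Fin 2) (Adl K)).det) :=
    (Matrix.isUnit_iff_isUnit_det _).1 b.isUnit
  rw [Matrix.det_fin_two, hb10, mul_zero, sub_zero] at hdet
  have h11 : IsUnit ((b : Matrix (Fin 2) (Fin 2) (Adl K)) 1 1) := isUnit_of_mul_isUnit_right hdet
  have hkI : ∀ v i j, Valued.v (finComp v k i j) ≤ 1 := fun v i j =>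
    (HeightOneSpectrum.mem_adicCompletionIntegers (𝓞 K) K v).1 ((hk.1 v).1 i j)
  have hkI' : ∀ v i j, Valued.v (finComp v k⁻¹ i j) ≤ 1 := fun v i j =>
    (HeightOneSpectrum.mem_adicCompletionIntegers (𝓞 K) K v).1 ((hk.1 v).2 i j)
  -- the congruence at `v ∈ S`
  have key : ∀ v : HeightOneSpectrum (𝓞 K), ∃ t ∈ idealClosure 𝔪 v,
      (v ∈ S → finComp v k 1 0 = t * finComp v k 1 1) := by
    intro v
    by_cases hv : v ∈ S
    · obtain ⟨t, ht, e⟩ := hg v ((hS.2 v).2 hv)
      refine ⟨t, ht, fun _ => ?_⟩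
      have hu : IsUnit (evFin724 v ((b : Matrix (Fin 2) (Fin 2) (Adl K)) 1 1)) :=
        h11.map (evFin724 v)
      have e0 : (botRow57 K (b * k) 0).2 v
          = evFin724 v ((b : Matrix (Fin 2) (Fin 2) (Adl K)) 1 1) * finComp v k 1 0 := by
        change evFin724 v (((b * k : G K) : Matrix (Fin 2) (Fin 2) (Adl K)) 1 0) = _
        rw [Units.val_mul, Matrix.mul_apply, Fin.sum_univ_two, hb10, zero_mul, zero_add, map_mul]
        rfl
      have e1 : (botRow57 K (b * k) 1).2 v
          = evFin724 v ((b : Matrix (Fin 2) (Fin 2) (Adl K)) 1 1) * finComp v k 1 1 := by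
        change evFin724 v (((b * k : G K) : Matrix (Fin 2) (Fin 2) (Adl K)) 1 1) = _
        rw [Units.val_mul, Matrix.mul_apply, Fin.sum_univ_two, hb10, zero_mul, zero_add, map_mul]
        rfl
      rw [e0, e1] at e
      have e' : evFin724 v ((b : Matrix (Fin 2) (Fin 2) (Adl K)) 1 1) * finComp v k 1 0
          = evFin724 v ((b : Matrix (Fin 2) (Fin 2) (Adl K)) 1 1) * (t * finComp v k 1 1) := by
        rw [e]; ring
      exact mul_left_cancel₀ hu.ne_zero e'
    · exact ⟨0, zero_mem_idealClosure724 v 𝔪, fun h => absurd h hv⟩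
  choose t ht1 ht2 using key
  have htI : ∀ v, Valued.v (t v) ≤ 1 := fun v => val_le_one_of_mem_idealClosure724 v 𝔪 (ht1 v)
  have htI' : ∀ v, Valued.v (-t v) ≤ 1 := fun v => by rw [Valuation.map_neg]; exact htI v
  -- the local components of `β`
  let βM : ∀ v : HeightOneSpectrum (𝓞 K), Matrix (Fin 2) (Fin 2) (v.adicCompletion K) :=
    fun v => if v ∈ S then finComp v k * !![1, 0; -t v, 1] else 1
  let βN : ∀ v : HeightOneSpectrum (𝓞 K), Matrix (Fin 2) (Fin 2) (v.adicCompletion K) :=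
    fun v => if v ∈ S then !![1, 0; t v, 1] * finComp v k⁻¹ else 1
  have hβM : ∀ v i j, Valued.v (βM v i j) ≤ 1 := by
    intro v i j
    by_cases hv : v ∈ S
    · simp only [βM, if_pos hv]
      exact isInt_mul704 (hkI v) (isInt_low704 (htI' v)) i j
    · simp only [βM, if_neg hv]
      exact val_one_apply_le724 v i j
  have hβN : ∀ v i j, Valued.v (βN v i j) ≤ 1 := by
    intro v i j
    by_cases hv : v ∈ S
    · simp only [βN, if_pos hv]
      exact isInt_mul704 (isInt_low704 (htI v)) (hkI' v) i j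
    · simp only [βN, if_neg hv]
      exact val_one_apply_le724 v i j
  have hβ3 : ∀ v, βM v * βN v = 1 := by
    intro v
    by_cases hv : v ∈ S
    · simp only [βM, βN, if_pos hv]
      rw [Matrix.mul_assoc, ← Matrix.mul_assoc (!![1, 0; -t v, 1]), low_mul_low'704,
        Matrix.one_mul, finComp_mul_inv724]
    · simp only [βM, βN, if_neg hv, mul_one]
  obtain ⟨β, hβdef⟩ : ∃ β : G K, β = mkG724 (fun _ => 1) (fun _ => 1) βM βN hβM hβN
      (fun _ => mul_one 1) hβ3 := ⟨_, rfl⟩
  have hβfin : ∀ v, finComp v β = βM v := fun v => by rw [hβdef]; rfl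
  have hβfin' : ∀ v, finComp v β⁻¹ = βN v := fun v => by rw [hβdef]; rfl
  have hβinf' : ∀ w, cInf724 w β⁻¹ = 1 := fun w => by rw [hβdef]; rfl
  have hβinf : ∀ w, cInf724 w β = 1 := fun w => by rw [hβdef]; rfl
  have hβ10 : (β : Matrix (Fin 2) (Fin 2) (Adl K)) 1 0 = 0 := by
    refine adl_ext724 (fun w => ?_) (fun v => ?_)
    · rw [map_zero]
      have := congrFun (congrFun (hβinf w) 1) 0
      simpa [cInf724] using this
    · rw [map_zero]
      have h1 : evFin724 v ((β : Matrix (Fin 2) (Fin 2) (Adl K)) 1 0) = βM v 1 0 :=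
        congrFun (congrFun (hβfin v) 1) 0
      rw [h1]
      by_cases hv : v ∈ S
      · simp only [βM, if_pos hv]
        rw [Matrix.mul_apply, Fin.sum_univ_two]
        simp only [Matrix.of_apply, Matrix.cons_val', Matrix.cons_val_zero, Matrix.cons_val_one,
          Matrix.empty_val', Matrix.cons_val_fin_one]
        rw [ht2 v hv]
        ring
      · simp only [βM, if_neg hv]
        simp
  have hB : ((b * β : G K) : Matrix (Fin 2) (Fin 2) (Adl K)) 1 0 = 0 := by
    rw [Units.val_mul, Matrix.mul_apply, Fin.sum_univ_two, hb10, hβ10, zero_mul, mul_zero,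
      add_zero]
  obtain ⟨p₀, hp₀⟩ := exists_iota_of_upper704 (b * β) hB
  refine ⟨p₀, fun Ψ hΨ h => ?_⟩
  rw [hp₀]
  have ea : (b * β)⁻¹ * (b * k) = β⁻¹ * k := by group
  rw [ea]
  refine rightInv_kGroup704 hΨ ?_ h
  refine mem_kGroup_of_comps724 𝔪 Finset.univ (β⁻¹ * k) ?_ ?_ ?_
  · intro v i j
    have e1 : finComp v (β⁻¹ * k) = βN v * finComp v k := by
      rw [finComp_mul724, hβfin']
    have e2 : finComp v (β⁻¹ * k)⁻¹ = finComp v k⁻¹ * βM v := by
      rw [mul_inv_rev, inv_inv, finComp_mul724, hβfin]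
    rw [e1, e2]
    by_cases hv : v ∈ S
    · simp only [βM, βN, if_pos hv]
      rw [Matrix.mul_assoc, finComp_inv_mul724, Matrix.mul_one, ← Matrix.mul_assoc,
        finComp_inv_mul724, Matrix.one_mul]
      have hz := zero_mem_idealClosure724 v 𝔪
      have hn := neg_mem_idealClosure724 v 𝔪 (ht1 v)
      have hp := ht1 v
      constructor
      · fin_cases i <;> fin_cases j <;> simp [hz, hp]
      · fin_cases i <;> fin_cases j <;> simp [hz, hn]
    · simp only [βM, βN, if_neg hv, one_mul, mul_one]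
      have hnd : ¬ v.asIdeal ∣ 𝔪 := fun h => hv ((hS.2 v).1 h)
      constructor
      · apply mem_idealClosure_of_not_dvd724 v 𝔪 hnd
        rw [Matrix.sub_apply]
        exact (Valuation.map_sub _ _ _).trans (max_le (hkI v i j) (val_one_apply_le724 v i j))
      · apply mem_idealClosure_of_not_dvd724 v 𝔪 hnd
        rw [Matrix.sub_apply]
        exact (Valuation.map_sub _ _ _).trans (max_le (hkI' v i j) (val_one_apply_le724 v i j))
  · intro w _
    have e : infComp w (β⁻¹ * k) = infComp w k := by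
      rw [infComp_eq_cInf724, infComp_eq_cInf724, cInf_mul724, hβinf', one_mul]
    unfold CompactInf724
    rw [e]
    exact hk.2 w
  · intro w hw
    exact absurd (Finset.mem_univ w) hw

end Fermat.Agent.LT.H704
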